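-- S22: cusp forms of level Γ₀(N) are "cuspidal" in the sense of `Helper3.MS.IsCuspidal`,
-- and closure properties of `IsCuspidal`.
import Mathlib
import Fermat.Prelude.Def_CuspForm_HeckeAlgebra
import Fermat.Agent.Lib.Helper3.S22Defs

set_option autoImplicit false

namespace Fermat.Agent.Lib.Helper8

open CongruenceSubgroup UpperHalfPlane ModularForm Filter
open scoped MatrixGroups ModularForm Manifold
open Fermat.Agent.Lib.Helper3.MS

theorem posMat_det_ratMap_ne_zero (δ : PosMat) :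
    ((δ : Matrix (Fin 2) (Fin 2) ℤ).map (Int.cast : ℤ → ℚ)).det ≠ 0 := by
  have h : ((δ : Matrix (Fin 2) (Fin 2) ℤ).map (Int.cast : ℤ → ℚ)).det
      = (((δ : Matrix (Fin 2) (Fin 2) ℤ).det : ℤ) : ℚ) := by
    have := (Int.castRingHom ℚ).map_det (δ : Matrix (Fin 2) (Fin 2) ℤ)
    simpa [RingHom.mapMatrix_apply] using this.symm
  rw [h]
  exact_mod_cast (posMat_det_pos δ).ne'

/-- The image of `δ : PosMat` in `GL (Fin 2) ℚ`. -/
noncomputable def toGLQ (δ : PosMat) : GL (Fin 2) ℚ :=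
  Matrix.GeneralLinearGroup.mkOfDetNeZero
    ((δ : Matrix (Fin 2) (Fin 2) ℤ).map (Int.cast : ℤ → ℚ)) (posMat_det_ratMap_ne_zero δ)

theorem toGLQ_map (δ : PosMat) : (toGLQ δ).map (Rat.castHom ℝ) = toGL δ := by
  apply Matrix.GeneralLinearGroup.ext
  intro i j
  simp [toGLQ, toGL_apply]

open ConjAct Pointwise in
theorem isArithmetic_conj_toGL (Γ : Subgroup (GL (Fin 2) ℝ)) [Γ.IsArithmetic] (δ : PosMat) :
    (toConjAct (toGL δ)⁻¹ • Γ).IsArithmetic := by
  have := Subgroup.IsArithmetic.conj Γ (toGLQ δ)⁻¹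
  rwa [map_inv, toGLQ_map] at this

open ConjAct Pointwise in
theorem expDecay_cuspForm_slash {Γ : Subgroup (GL (Fin 2) ℝ)} [Γ.IsArithmetic] {k : ℤ}
    (f : CuspForm Γ k) (δ : PosMat) : ExpDecay ((⇑f : ℍ → ℂ) ∣[k] toGL δ) := by
  have : (toConjAct (toGL δ)⁻¹ • Γ).IsArithmetic := isArithmetic_conj_toGL Γ δ
  obtain ⟨c, hc, h⟩ := CuspFormClass.exp_decay_atImInfty' (CuspForm.translate f (toGL δ))
  exact ⟨c, hc, h⟩

theorem isCuspidal_cuspForm' {Γ : Subgroup (GL (Fin 2) ℝ)} [Γ.IsArithmetic] {k : ℤ}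
    (f : CuspForm Γ k) : IsCuspidal k f where
  holo := CuspFormClass.holo f
  decay δ := expDecay_cuspForm_slash f δ

end Fermat.Agent.Lib.Helper8

namespace Fermat.Agent.Lib.Helper3.MS

open CongruenceSubgroup UpperHalfPlane ModularForm Filter
open scoped MatrixGroups ModularForm Manifold

theorem isCuspidal_cuspForm {N : ℕ} [NeZero N] {k : ℤ}
    (f : CuspForm (CongruenceSubgroup.Gamma0 N) k) : IsCuspidal k f :=
  Fermat.Agent.Lib.Helper8.isCuspidal_cuspForm' f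

theorem IsCuspidal.slash {k : ℤ} {F : ℍ → ℂ} (h : IsCuspidal k F) (δ : PosMat) :
    IsCuspidal k (F ∣[k] toGL δ) where
  holo := h.holo.slash k (toGL δ)
  decay δ' := by
    rw [← SlashAction.slash_mul, ← map_mul]
    exact h.decay (δ * δ')

theorem IsCuspidal.slash_SL {k : ℤ} {F : ℍ → ℂ} (h : IsCuspidal k F) (γ : SL(2, ℤ)) :
    IsCuspidal k (F ∣[k] γ) := by
  have := h.slash (SLtoPos γ)
  rwa [toGL_SLtoPos] at this

theorem ExpDecay.of_le {F : ℍ → ℂ} {c c' : ℝ} (hc' : c' ≤ c)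
    (h : F =O[atImInfty] fun τ => Real.exp (-c * τ.im)) :
    F =O[atImInfty] fun τ => Real.exp (-c' * τ.im) := by
  refine h.trans (Asymptotics.IsBigO.of_bound 1 ?_)
  filter_upwards with τ
  rw [Real.norm_eq_abs, Real.norm_eq_abs, abs_of_pos (Real.exp_pos _), abs_of_pos (Real.exp_pos _),
    one_mul]
  apply Real.exp_le_exp.mpr
  have : 0 < τ.im := τ.im_pos
  nlinarith

theorem ExpDecay.add {F F' : ℍ → ℂ} (h : ExpDecay F) (h' : ExpDecay F') : ExpDecay (F + F') := by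
  obtain ⟨c, hc, hF⟩ := h
  obtain ⟨c', hc', hF'⟩ := h'
  refine ⟨min c c', lt_min hc hc', ?_⟩
  exact (ExpDecay.of_le (min_le_left _ _) hF).add (ExpDecay.of_le (min_le_right _ _) hF')

theorem ExpDecay.smul {F : ℍ → ℂ} (h : ExpDecay F) (a : ℂ) : ExpDecay (a • F) := by
  obtain ⟨c, hc, hF⟩ := h
  exact ⟨c, hc, hF.const_smul_left a⟩

theorem IsCuspidal.add {k : ℤ} {F F' : ℍ → ℂ} (h : IsCuspidal k F) (h' : IsCuspidal k F') :
    IsCuspidal k (F + F') where
  holo := h.holo.add h'.holo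
  decay δ := by
    rw [SlashAction.add_slash]
    exact (h.decay δ).add (h'.decay δ)

theorem IsCuspidal.smul {k : ℤ} {F : ℍ → ℂ} (h : IsCuspidal k F) (c : ℂ) :
    IsCuspidal k (c • F) where
  holo := h.holo.const_smul c
  decay δ := by
    rw [ModularForm.smul_slash, UpperHalfPlane.σ, if_pos (toGL_det_pos δ)]
    exact (h.decay δ).smul _

theorem isCuspidal_zero (k : ℤ) : IsCuspidal k (0 : ℍ → ℂ) where
  holo := mdifferentiable_const
  decay δ := by
    rw [SlashAction.zero_slash]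
    exact ⟨1, one_pos, Asymptotics.isBigO_zero _ _⟩

end Fermat.Agent.Lib.Helper3.MS
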