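-- S22 reductions: trivial weights, reduction to S = ∅, and the abstract finiteness lemma
-- (a ℤ-subalgebra of End_ℂ(V) whose transposes preserve a f.g. separating subgroup of the dual
-- is a finite ℤ-module).
import Mathlib
import Fermat.Prelude.Def_CuspForm_HeckeAlgebra
import Fermat.Prelude.Thm_ModularForm_sturm_bound_Gamma0
import Fermat.Prelude.Thm_CongruenceSubgroup_one_mem_strictPeriods_Gamma0

set_option autoImplicit false

namespace Fermat.Agent.Lib.Helper8

open CongruenceSubgroup UpperHalfPlane ModularForm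
open scoped MatrixGroups

section Abstract

variable {V : Type*} [AddCommGroup V] [Module ℂ V]

/-- Abstract finiteness: a `ℤ`-subalgebra of `End_ℂ(V)` generated by operators whose transposes
preserve a finitely generated subgroup `MM` of the dual which separates points of `V`,
is a finitely generated `ℤ`-module. -/
theorem finite_adjoin_of_stable_lattice
    (G : Set (Module.End ℂ V)) (MM : Submodule ℤ (Module.Dual ℂ V)) (hfg : MM.FG)
    (hsep : ∀ v : V, (∀ ξ ∈ MM, ξ v = 0) → v = 0)
    (hstab : ∀ t ∈ G, ∀ ξ ∈ MM, ξ.comp t ∈ MM) :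
    Module.Finite ℤ (Algebra.adjoin ℤ G) := by
  classical
  -- every element of the adjoin preserves MM
  have hstab' : ∀ a ∈ Algebra.adjoin ℤ G, ∀ ξ ∈ MM, ξ.comp a ∈ MM := by
    intro a ha
    induction ha using Algebra.adjoin_induction with
    | mem t ht => exact hstab t ht
    | algebraMap r =>
      intro ξ hξ
      have : ξ.comp (algebraMap ℤ (Module.End ℂ V) r) = r • ξ := by
        ext v
        simp
      rw [this]
      exact MM.smul_mem r hξ
    | add a b _ _ iha ihb =>
      intro ξ hξ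
      have : ξ.comp (a + b) = ξ.comp a + ξ.comp b := by
        ext v; simp
      rw [this]
      exact MM.add_mem (iha ξ hξ) (ihb ξ hξ)
    | mul a b _ _ iha ihb =>
      intro ξ hξ
      have : ξ.comp (a * b) = (ξ.comp a).comp b := by
        ext v; simp [Module.End.mul_apply]
      rw [this]
      exact ihb _ (iha ξ hξ)
  have hfinMM : Module.Finite ℤ MM := Module.Finite.iff_fg.mpr hfg
  -- the map to End_ℤ(MM)
  let Φ : (Algebra.adjoin ℤ G) →ₗ[ℤ] (MM →ₗ[ℤ] MM) :=
    { toFun := fun a =>
        { toFun := fun ξ => ⟨(ξ : Module.Dual ℂ V).comp (a : Module.End ℂ V), hstab' a a.2 ξ ξ.2⟩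
          map_add' := fun ξ η => by
            apply Subtype.ext
            ext v; simp
          map_smul' := fun r ξ => by
            apply Subtype.ext
            ext v; simp }
      map_add' := fun a b => by
        ext ξ v
        simp
      map_smul' := fun r a => by
        ext ξ v
        simp }
  have hΦ : Function.Injective Φ := by
    rw [← LinearMap.ker_eq_bot, Submodule.eq_bot_iff]
    intro a ha
    rw [LinearMap.mem_ker] at ha
    apply Subtype.ext
    ext v
    apply hsep
    intro ξ hξ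
    have h1 := congrArg (fun f : MM →ₗ[ℤ] MM => ((f ⟨ξ, hξ⟩ : MM) : Module.Dual ℂ V) v) ha
    simpa [Φ] using h1
  -- End_ℤ(MM) is noetherian
  have hfree : Module.Free ℤ MM := inferInstance
  have hfinEnd : Module.Finite ℤ (MM →ₗ[ℤ] MM) := Module.Finite.linearMap ℤ ℤ MM MM
  have hnoeth : IsNoetherian ℤ (MM →ₗ[ℤ] MM) := isNoetherian_of_isNoetherianRing_of_finite ℤ _
  exact Module.Finite.of_injective Φ hΦ

end Abstract


/-- View a cusp form as a modular form. -/
def cuspToModular' {Γ : Subgroup (GL (Fin 2) ℝ)} {k : ℤ} (f : CuspForm Γ k) : ModularForm Γ k where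
  toSlashInvariantForm := f.toSlashInvariantForm
  holo' := f.holo'
  bdd_at_cusps' := fun hc g hg => (f.zero_at_cusps' hc g hg).boundedAtFilter

theorem cuspForm_eq_zero_of_nonpos {N : ℕ} [NeZero N] {k : ℤ} (hk : k ≤ 0)
    (f : CuspForm (Gamma0 N) k) : f = 0 := by
  have h0 : cuspToModular' f = 0 := by
    apply ModularForm.sturm_bound_Gamma0 N (cuspToModular' f)
    intro n hn
    have hn0 : n = 0 := by
      have h1 : k * ((Gamma0 N).index : ℤ) ≤ 0 :=
        mul_nonpos_of_nonpos_of_nonneg hk (Int.natCast_nonneg _)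
      have h2 : (k * ((Gamma0 N).index : ℤ)).toNat = 0 := Int.toNat_of_nonpos h1
      rw [h2] at hn
      simpa using hn
    subst hn0
    exact CuspFormClass.qExpansion_coeff_zero f one_pos
      (CongruenceSubgroup.one_mem_strictPeriods_Gamma0 N)
  ext z
  have h1 : cuspToModular' f z = 0 := by rw [h0]; rfl
  exact h1

theorem cuspForm_eq_zero_of_odd {N : ℕ} {k : ℤ} (hk : Odd k)
    (f : CuspForm (Gamma0 N) k) : f = 0 := by
  ext z
  have hmem : (-1 : SL(2, ℤ)) ∈ Gamma0 N := by
    rw [Gamma0_mem]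
    simp
  have h := SlashInvariantForm.slash_action_eqn_SL'' f hmem z
  have h1 : ((-1 : SL(2, ℤ)) • z) = z := by
    rw [ModularGroup.SL_neg_smul, one_smul]
  rw [h1] at h
  have h2 : denom ((-1 : SL(2, ℤ)) : GL (Fin 2) ℝ) z = -1 := by
    simp [denom]
  rw [h2, hk.neg_one_zpow] at h
  have h3 : (2 : ℂ) * f z = 0 := by linear_combination h
  simpa using h3


variable {N : ℕ} [NeZero N] {k : ℤ}

theorem heckeAlgebra_finite_of_forall_eq_zero (S : Set ℕ)
    (h : ∀ f : CuspForm (Gamma0 N) k, f = 0) :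
    Module.Finite ℤ (CuspForm.heckeAlgebra N k S) := by
  have : Subsingleton (CuspForm (Gamma0 N) k) := ⟨fun a b => by rw [h a, h b]⟩
  have : Subsingleton (Module.End ℂ (CuspForm (Gamma0 N) k)) :=
    ⟨fun a b => LinearMap.ext fun x => Subsingleton.elim _ _⟩
  have : Subsingleton (CuspForm.heckeAlgebra N k S) :=
    ⟨fun a b => Subtype.ext (Subsingleton.elim _ _)⟩
  exact Module.Finite.of_finite

theorem heckeAlgebra_finite_of_empty (S : Set ℕ)
    (h : Module.Finite ℤ (CuspForm.heckeAlgebra N k (∅ : Set ℕ))) :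
    Module.Finite ℤ (CuspForm.heckeAlgebra N k S) := by
  have hle : CuspForm.heckeAlgebra N k S ≤ CuspForm.heckeAlgebra N k (∅ : Set ℕ) :=
    CuspForm.heckeAlgebra_mono (Set.empty_subset S)
  have hnoeth : IsNoetherian ℤ (CuspForm.heckeAlgebra N k (∅ : Set ℕ)) :=
    isNoetherian_of_isNoetherianRing_of_finite ℤ _
  exact Module.Finite.of_injective (Subalgebra.inclusion hle).toLinearMap
    (Subalgebra.inclusion_injective hle)

/-- Reduction of S22 to the existence of a Hecke-stable finitely generated separating lattice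
in the dual of the space of cusp forms. -/
theorem heckeAlgebra_finite_of_lattice
    (MM : Submodule ℤ (Module.Dual ℂ (CuspForm (Gamma0 N) k))) (hfg : MM.FG)
    (hsep : ∀ f : CuspForm (Gamma0 N) k, (∀ ξ ∈ MM, ξ f = 0) → f = 0)
    (hT : ∀ (ℓ : ℕ) (hℓ : ℓ.Prime) (hℓN : ¬ ℓ ∣ N), ∀ ξ ∈ MM,
      ξ.comp (CuspForm.heckeTLin k hℓ hℓN) ∈ MM)
    (hU : ∀ (q : ℕ) (_ : q.Prime) (hqN : q ∣ N), ∀ ξ ∈ MM,
      ξ.comp (CuspForm.heckeULin k hqN) ∈ MM) (S : Set ℕ) :
    Module.Finite ℤ (CuspForm.heckeAlgebra N k S) := by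
  apply heckeAlgebra_finite_of_empty
  unfold CuspForm.heckeAlgebra
  apply finite_adjoin_of_stable_lattice _ MM hfg hsep
  rintro t (⟨ℓ, hℓ, hℓN, -, rfl⟩ | ⟨q, hqN, hq, -, rfl⟩)
  · exact hT ℓ hℓ hℓN
  · exact hU q hq hqN


/-- S22 for weights `k ≤ 0`. -/
theorem heckeAlgebra_finite_of_nonpos (hk : k ≤ 0) (S : Set ℕ) :
    Module.Finite ℤ (CuspForm.heckeAlgebra N k S) :=
  heckeAlgebra_finite_of_forall_eq_zero S (cuspForm_eq_zero_of_nonpos hk)

/-- S22 for odd weights. -/
theorem heckeAlgebra_finite_of_odd (hk : Odd k) (S : Set ℕ) :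
    Module.Finite ℤ (CuspForm.heckeAlgebra N k S) :=
  heckeAlgebra_finite_of_forall_eq_zero S (cuspForm_eq_zero_of_odd hk)

end Fermat.Agent.Lib.Helper8
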