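-- S22: abstract modular-symbol machinery.  A "period system" (period integrals between cusps of
-- SL(2,ℤ), equivariant under integer matrices of positive determinant) yields a finitely generated,
-- Hecke-stable lattice in the dual of the space of cusp forms; hence the Hecke algebra is finite over ℤ
-- as soon as the periods detect vanishing of cusp forms.
import Mathlib
import Fermat.Prelude.Def_CuspForm_HeckeAlgebra
import Fermat.Agent.Lib.Helper8.S22Abstract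

set_option autoImplicit false

namespace Fermat.Agent.Lib.Helper8

open CongruenceSubgroup UpperHalfPlane ModularForm
open scoped MatrixGroups ModularForm

theorem intGL_aux (M : Matrix (Fin 2) (Fin 2) ℤ) (hM : 0 < M.det) :
    ((Int.castRingHom ℝ).mapMatrix M).det ≠ 0 := by
  rw [← RingHom.map_det]
  simpa using hM.ne'

/-- An integer matrix with positive determinant, as an element of `GL (Fin 2) ℝ`. -/
noncomputable def intGL (M : Matrix (Fin 2) (Fin 2) ℤ) (hM : 0 < M.det) : GL (Fin 2) ℝ :=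
  Matrix.GeneralLinearGroup.mkOfDetNeZero ((Int.castRingHom ℝ).mapMatrix M) (intGL_aux M hM)

@[simp] theorem val_intGL (M : Matrix (Fin 2) (Fin 2) ℤ) (hM : 0 < M.det) :
    ((intGL M hM : GL (Fin 2) ℝ) : Matrix (Fin 2) (Fin 2) ℝ) = (Int.castRingHom ℝ).mapMatrix M := rfl

theorem intGL_mul (M M' : Matrix (Fin 2) (Fin 2) ℤ) (hM : 0 < M.det) (hM' : 0 < M'.det) 
    (h : 0 < (M * M').det) :
    intGL (M * M') h = intGL M hM * intGL M' hM' := by
  apply Units.ext
  rw [Units.val_mul, val_intGL, val_intGL, val_intGL, map_mul]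

theorem intGL_congr {M M' : Matrix (Fin 2) (Fin 2) ℤ} (h : M = M') (hM : 0 < M.det) :
    intGL M hM = intGL M' (h ▸ hM) := by
  subst h; rfl

theorem intGL_one (h : 0 < (1 : Matrix (Fin 2) (Fin 2) ℤ).det) : intGL 1 h = 1 := by
  apply Units.ext
  rw [val_intGL, map_one]; rfl

theorem det_pos_of_SL (g : SL(2, ℤ)) : 0 < (g : Matrix (Fin 2) (Fin 2) ℤ).det := by
  rw [g.2]; exact one_pos

theorem intGL_SL (g : SL(2, ℤ)) (h : 0 < (g : Matrix (Fin 2) (Fin 2) ℤ).det) :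
    intGL (g : Matrix (Fin 2) (Fin 2) ℤ) h = Matrix.SpecialLinearGroup.mapGL ℝ g := by
  apply Matrix.GeneralLinearGroup.ext
  intro i j
  simp [intGL]

theorem heckeMatrix_eq_intGL {p : ℕ} (hp : p ≠ 0) (j : ℕ) (h : 0 < (!![(1:ℤ), (j:ℤ); 0, (p:ℤ)]).det) :
    heckeMatrix p j = intGL !![(1:ℤ), (j:ℤ); 0, (p:ℤ)] h := by
  apply Matrix.GeneralLinearGroup.ext
  intro a b
  rw [val_heckeMatrix hp, val_intGL]
  fin_cases a <;> fin_cases b <;> simp

theorem heckeDiagMatrix_eq_intGL {p : ℕ} (hp : p ≠ 0) (h : 0 < (!![(p:ℤ), 0; 0, 1]).det) :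
    heckeDiagMatrix p = intGL !![(p:ℤ), 0; 0, 1] h := by
  apply Matrix.GeneralLinearGroup.ext
  intro a b
  rw [val_heckeDiagMatrix hp, val_intGL]
  fin_cases a <;> fin_cases b <;> simp

/-- Hermite normal form (weak version): every integer `2 × 2` matrix is `h * β` with
`h ∈ SL(2, ℤ)` and `β` upper triangular. -/
theorem exists_SL_mul_upper (A : Matrix (Fin 2) (Fin 2) ℤ) :
    ∃ (h : SL(2, ℤ)) (β : Matrix (Fin 2) (Fin 2) ℤ), β 1 0 = 0 ∧ A = h.1 * β := by
  by_cases h0 : A 0 0 = 0 ∧ A 1 0 = 0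
  · exact ⟨1, A, h0.2, by simp⟩
  · set a := A 0 0 with ha
    set c := A 1 0 with hc
    have hg : (Int.gcd a c : ℤ) ≠ 0 := by
      intro h
      apply h0
      have := Int.gcd_eq_zero_iff.mp (by exact_mod_cast h)
      exact this
    obtain ⟨a', ha'⟩ : (Int.gcd a c : ℤ) ∣ a := Int.gcd_dvd_left a c
    obtain ⟨c', hc'⟩ : (Int.gcd a c : ℤ) ∣ c := Int.gcd_dvd_right a c
    have hbez := Int.gcd_eq_gcd_ab a c
    set x := Int.gcdA a c
    set y := Int.gcdB a c
    set g : ℤ := (Int.gcd a c : ℤ) with hgdef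
    have h1 : a' * x + c' * y = 1 := by
      have : g * (a' * x + c' * y) = g * 1 := by
        rw [mul_one]; 
        calc g * (a' * x + c' * y) = (g * a') * x + (g * c') * y := by ring
          _ = g := by rw [← ha', ← hc']; exact hbez.symm
      exact mul_left_cancel₀ hg this
    refine ⟨⟨!![a', -y; c', x], by rw [Matrix.det_fin_two_of]; linarith⟩,
      !![x, y; -c', a'] * A, ?_, ?_⟩
    · simp only [Matrix.mul_apply, Fin.sum_univ_two, Matrix.of_apply, Matrix.cons_val', 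
        Matrix.cons_val_zero, Matrix.cons_val_one]
      simp
      rw [← ha, ← hc, ha', hc']; ring
    · rw [← Matrix.mul_assoc]
      have : (!![a', -y; c', x] : Matrix (Fin 2) (Fin 2) ℤ) * !![x, y; -c', a'] = 1 := by
        rw [Matrix.mul_fin_two]
        ext i j
        fin_cases i <;> fin_cases j <;> simp <;> linarith
      rw [this, one_mul]

/-- Abstract period system of weight `k` with coefficient module `Cf`. -/
structure PeriodSystem (k : ℤ) (Cf : Type*) [AddCommGroup Cf] where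
  /-- admissible functions -/
  W : Submodule ℂ (ℍ → ℂ)
  slash_mem : ∀ (M : Matrix (Fin 2) (Fin 2) ℤ) (hM : 0 < M.det), ∀ φ ∈ W, φ ∣[k] intGL M hM ∈ W
  /-- action of integer matrices on coefficients -/
  act : Matrix (Fin 2) (Fin 2) ℤ → Cf →+ Cf
  /-- period integral between the cusps `g ∞` and `g' ∞` -/
  I : (ℍ → ℂ) → Cf → SL(2, ℤ) → SL(2, ℤ) → ℂ
  I_add : ∀ φ ∈ W, ∀ ψ ∈ W, ∀ P g g', I (φ + ψ) P g g' = I φ P g g' + I ψ P g g'
  I_smul : ∀ (c : ℂ), ∀ φ ∈ W, ∀ P g g', I (c • φ) P g g' = c * I φ P g g'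
  I_add_right : ∀ φ ∈ W, ∀ P Q g g', I φ (P + Q) g g' = I φ P g g' + I φ Q g g'
  I_trans : ∀ φ ∈ W, ∀ P g₁ g₂ g₃, I φ P g₁ g₂ + I φ P g₂ g₃ = I φ P g₁ g₃
  I_slash : ∀ φ ∈ W, ∀ (M : Matrix (Fin 2) (Fin 2) ℤ) (hM : 0 < M.det) (P : Cf)
    (g g' h h' : SL(2, ℤ)) (β β' : Matrix (Fin 2) (Fin 2) ℤ), β 1 0 = 0 → β' 1 0 = 0 →
    M * g.1 = h.1 * β → M * g'.1 = h'.1 * β' →
    I (φ ∣[k] intGL M hM) P g g' = I φ (act M P) h h'

namespace PeriodSystem

variable {k : ℤ} {Cf : Type*} [AddCommGroup Cf] (PS : PeriodSystem k Cf)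

theorem I_self {φ : ℍ → ℂ} (hφ : φ ∈ PS.W) (P : Cf) (g : SL(2, ℤ)) : PS.I φ P g g = 0 := by
  have := PS.I_trans φ hφ P g g g
  linear_combination this

theorem I_symm {φ : ℍ → ℂ} (hφ : φ ∈ PS.W) (P : Cf) (g g' : SL(2, ℤ)) :
    PS.I φ P g g' = - PS.I φ P g' g := by
  have := PS.I_trans φ hφ P g g' g
  rw [PS.I_self hφ] at this
  linear_combination this

theorem I_eq_sub {φ : ℍ → ℂ} (hφ : φ ∈ PS.W) (P : Cf) (g g' : SL(2, ℤ)) :
    PS.I φ P g g' = PS.I φ P 1 g' - PS.I φ P 1 g := by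
  have := PS.I_trans φ hφ P 1 g g'
  linear_combination this

/-- `P ↦ I φ P g g'` as an additive map. -/
def Ihom {φ : ℍ → ℂ} (hφ : φ ∈ PS.W) (g g' : SL(2, ℤ)) : Cf →+ ℂ :=
  AddMonoidHom.mk' (fun P => PS.I φ P g g') (fun P Q => PS.I_add_right φ hφ P Q g g')

theorem I_zero_left (P : Cf) (g g' : SL(2, ℤ)) : PS.I 0 P g g' = 0 := by
  have := PS.I_smul 0 0 PS.W.zero_mem P g g'
  simpa using this

theorem I_sum {ι : Type*} (s : Finset ι) (φ : ι → ℍ → ℂ) (hφ : ∀ i ∈ s, φ i ∈ PS.W) (P : Cf)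
    (g g' : SL(2, ℤ)) : PS.I (∑ i ∈ s, φ i) P g g' = ∑ i ∈ s, PS.I (φ i) P g g' := by
  classical
  induction s using Finset.induction_on with
  | empty => simp [PS.I_zero_left]
  | insert a s ha ih =>
    rw [Finset.sum_insert ha, Finset.sum_insert ha, PS.I_add _ (hφ a (Finset.mem_insert_self a s))
      _ (PS.W.sum_mem fun i hi => hφ i (Finset.mem_insert_of_mem hi)), ih
      (fun i hi => hφ i (Finset.mem_insert_of_mem hi))]

/-- The period integral between `g ∞` and `(g β) ∞` vanishes if `β ∈ SL(2, ℤ)` is upper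
triangular. -/
theorem I_mul_upper {φ : ℍ → ℂ} (hφ : φ ∈ PS.W) (P : Cf) (g β : SL(2, ℤ)) (hβ : β.1 1 0 = 0) :
    PS.I φ P g (g * β) = 0 := by
  have h1 : (0 : ℤ) < (1 : Matrix (Fin 2) (Fin 2) ℤ).det := by simp
  have := PS.I_slash φ hφ 1 h1 P g (g * β) g g 1 β.1 (by simp) hβ (by simp) (by simp)
  rw [intGL_one, SlashAction.slash_one, PS.I_self hφ] at this
  exact this

end PeriodSystem

namespace PeriodSystem

variable {k : ℤ} {Cf : Type*} [AddCommGroup Cf] (PS : PeriodSystem k Cf)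
variable {N : ℕ} (hV : ∀ f : CuspForm (Gamma0 N) k, (⇑f : ℍ → ℂ) ∈ PS.W)

/-- The modular symbol functional `f ↦ ∫_{g ∞}^{g' ∞} f P`. -/
def sym (P : Cf) (g g' : SL(2, ℤ)) : Module.Dual ℂ (CuspForm (Gamma0 N) k) where
  toFun f := PS.I ⇑f P g g'
  map_add' f f' := by
    rw [FunLike.coe_add]; exact PS.I_add _ (hV f) _ (hV f') P g g'
  map_smul' c f := by
    rw [FunLike.coe_smul]; exact PS.I_smul c _ (hV f) P g g'

@[simp] theorem sym_apply (P : Cf) (g g' : SL(2, ℤ)) (f : CuspForm (Gamma0 N) k) :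
    PS.sym hV P g g' f = PS.I ⇑f P g g' := rfl

/-- `P ↦ sym P g g'` as a `ℤ`-linear map. -/
def symLin (g g' : SL(2, ℤ)) : Cf →ₗ[ℤ] Module.Dual ℂ (CuspForm (Gamma0 N) k) :=
  (AddMonoidHom.mk' (fun P => PS.sym hV P g g') (fun P Q => by
    ext f
    simp only [sym_apply, LinearMap.add_apply]
    exact PS.I_add_right _ (hV f) P Q g g')).toIntLinearMap

@[simp] theorem symLin_apply (P : Cf) (g g' : SL(2, ℤ)) :
    PS.symLin hV g g' P = PS.sym hV P g g' := rfl

/-- The lattice of modular symbols. -/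
def lattice : Submodule ℤ (Module.Dual ℂ (CuspForm (Gamma0 N) k)) :=
  Submodule.span ℤ (Set.range fun x : Cf × SL(2, ℤ) × SL(2, ℤ) => PS.sym hV x.1 x.2.1 x.2.2)

theorem sym_mem_lattice (P : Cf) (g g' : SL(2, ℤ)) : PS.sym hV P g g' ∈ PS.lattice hV :=
  Submodule.subset_span ⟨(P, g, g'), rfl⟩

theorem sym_self (P : Cf) (g : SL(2, ℤ)) : PS.sym hV P g g = 0 := by
  ext f; simp [PS.I_self (hV f)]

theorem sym_trans (P : Cf) (g₁ g₂ g₃ : SL(2, ℤ)) :
    PS.sym hV P g₁ g₂ + PS.sym hV P g₂ g₃ = PS.sym hV P g₁ g₃ := by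
  ext f; simp [PS.I_trans _ (hV f)]

theorem sym_symm (P : Cf) (g g' : SL(2, ℤ)) : PS.sym hV P g g' = - PS.sym hV P g' g := by
  ext f; simp only [sym_apply, LinearMap.neg_apply]; exact PS.I_symm (hV f) P g g'

theorem sym_mul_upper (P : Cf) (g β : SL(2, ℤ)) (hβ : β.1 1 0 = 0) :
    PS.sym hV P g (g * β) = 0 := by
  ext f; simp [PS.I_mul_upper (hV f) P g β hβ]

/-- `Γ₀(N)`-invariance of the symbols. -/
theorem sym_Gamma0_mul (P : Cf) (γ : SL(2, ℤ)) (hγ : γ ∈ Gamma0 N) (h h' : SL(2, ℤ)) :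
    PS.sym hV P (γ * h) (γ * h') = PS.sym hV (PS.act (γ⁻¹ : SL(2, ℤ)).1 P) h h' := by
  ext f
  simp only [sym_apply]
  have hinv : (⇑f : ℍ → ℂ) ∣[k] intGL (γ⁻¹ : SL(2, ℤ)).1 (det_pos_of_SL _) = ⇑f := by
    rw [intGL_SL]
    exact SlashInvariantFormClass.slash_action_eq f _
      (Subgroup.mem_map_of_mem _ ((Gamma0 N).inv_mem hγ))
  have := PS.I_slash _ (hV f) (γ⁻¹ : SL(2, ℤ)).1 (det_pos_of_SL _) P (γ * h) (γ * h') h h' 1 1
    (by simp) (by simp)
    (by rw [← Matrix.SpecialLinearGroup.coe_mul, inv_mul_cancel_left, mul_one])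
    (by rw [← Matrix.SpecialLinearGroup.coe_mul, inv_mul_cancel_left, mul_one])
  rw [hinv] at this
  exact this

/-- Manin's trick: all symbols `{∞, g ∞}` are sums of unimodular symbols `{h ∞, h S ∞}`. -/
theorem sym_one_mem_span (P : Cf) (g : SL(2, ℤ)) :
    PS.sym hV P 1 g ∈ Submodule.span ℤ
      (Set.range fun x : Cf × SL(2, ℤ) => PS.sym hV x.1 x.2 (x.2 * ModularGroup.S)) := by
  have hg : g ∈ Subgroup.closure {ModularGroup.S, ModularGroup.T} := by
    rw [SpecialLinearGroup.SL2Z_generators]; trivial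
  induction hg using Subgroup.closure_induction_right with
  | one => rw [sym_self]; exact Submodule.zero_mem _
  | mul_right x hx y hy ih =>
    rw [← PS.sym_trans hV P 1 x (x * y)]
    refine Submodule.add_mem _ ih ?_
    rcases hy with rfl | hy
    · exact Submodule.subset_span ⟨(P, x), rfl⟩
    · rw [Set.mem_singleton_iff] at hy
      subst hy
      rw [PS.sym_mul_upper hV P x ModularGroup.T (by simp [ModularGroup.coe_T])]
      exact Submodule.zero_mem _
  | mul_inv_cancel x hx y hy ih =>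
    rw [← PS.sym_trans hV P 1 x (x * y⁻¹)]
    refine Submodule.add_mem _ ih ?_
    rcases hy with rfl | hy
    · rw [PS.sym_symm hV]
      refine Submodule.neg_mem _ ?_
      refine Submodule.subset_span ⟨(P, x * ModularGroup.S⁻¹), ?_⟩
      simp
    · rw [Set.mem_singleton_iff] at hy
      subst hy
      rw [PS.sym_mul_upper hV P x ModularGroup.T⁻¹ (by simp)]
      exact Submodule.zero_mem _

end PeriodSystem

namespace PeriodSystem

variable {k : ℤ} {Cf : Type*} [AddCommGroup Cf] (PS : PeriodSystem k Cf)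
variable {N : ℕ} (hV : ∀ f : CuspForm (Gamma0 N) k, (⇑f : ℍ → ℂ) ∈ PS.W)

theorem sym_mem_iSup [NeZero N] (P : Cf) (h : SL(2, ℤ)) :
    PS.sym hV P h (h * ModularGroup.S) ∈
      ⨆ q : SL(2, ℤ) ⧸ Gamma0 N, LinearMap.range
        (PS.symLin hV (Quotient.out q)⁻¹ ((Quotient.out q)⁻¹ * ModularGroup.S)) := by
  obtain ⟨γ, hγ⟩ := QuotientGroup.mk_out_eq_mul (Gamma0 N) h⁻¹
  set q : SL(2, ℤ) ⧸ Gamma0 N := QuotientGroup.mk h⁻¹ with hq
  have h1 : h = (γ : SL(2, ℤ)) * (Quotient.out q)⁻¹ := by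
    rw [hγ]; group
  refine Submodule.mem_iSup_of_mem q ?_
  refine ⟨PS.act ((γ : SL(2, ℤ))⁻¹ : SL(2, ℤ)).1 P, ?_⟩
  rw [symLin_apply, ← PS.sym_Gamma0_mul hV P γ γ.2, ← mul_assoc, ← h1]

theorem lattice_fg [NeZero N] [Module.Finite ℤ Cf] : (PS.lattice hV).FG := by
  have hfin : Finite (SL(2, ℤ) ⧸ Gamma0 N) := Subgroup.finite_quotient_of_finiteIndex
  have hFG : (⨆ q : SL(2, ℤ) ⧸ Gamma0 N, LinearMap.range
        (PS.symLin hV (Quotient.out q)⁻¹ ((Quotient.out q)⁻¹ * ModularGroup.S))).FG := by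
    apply Submodule.fg_iSup
    intro q
    rw [LinearMap.range_eq_map]
    exact Submodule.FG.map _ Module.Finite.fg_top
  refine Submodule.FG.of_le hFG ?_
  have hspan : Submodule.span ℤ
      (Set.range fun x : Cf × SL(2, ℤ) => PS.sym hV x.1 x.2 (x.2 * ModularGroup.S)) ≤
      ⨆ q : SL(2, ℤ) ⧸ Gamma0 N, LinearMap.range
        (PS.symLin hV (Quotient.out q)⁻¹ ((Quotient.out q)⁻¹ * ModularGroup.S)) := by
    rw [Submodule.span_le]
    rintro _ ⟨⟨P, h⟩, rfl⟩
    exact PS.sym_mem_iSup hV P h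
  unfold lattice
  rw [Submodule.span_le]
  rintro _ ⟨⟨P, g, g'⟩, rfl⟩
  apply hspan
  have : PS.sym hV P g g' = PS.sym hV P 1 g' - PS.sym hV P 1 g := by
    rw [← PS.sym_trans hV P 1 g g']; abel
  show PS.sym hV P g g' ∈ _
  rw [this]
  exact Submodule.sub_mem _ (PS.sym_one_mem_span hV P g') (PS.sym_one_mem_span hV P g)

/-- Slashing by an integer matrix maps symbols into the lattice. -/
theorem exists_sym_slash (M : Matrix (Fin 2) (Fin 2) ℤ) (hM : 0 < M.det) (P : Cf)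
    (g g' : SL(2, ℤ)) : ∃ ξ ∈ PS.lattice hV, ∀ f : CuspForm (Gamma0 N) k,
      PS.I ((⇑f : ℍ → ℂ) ∣[k] intGL M hM) P g g' = ξ f := by
  obtain ⟨h, β, hβ, e⟩ := exists_SL_mul_upper (M * g.1)
  obtain ⟨h', β', hβ', e'⟩ := exists_SL_mul_upper (M * g'.1)
  refine ⟨PS.sym hV (PS.act M P) h h', PS.sym_mem_lattice hV _ _ _, fun f => ?_⟩
  rw [sym_apply]
  exact PS.I_slash _ (hV f) M hM P g g' h h' β β' hβ hβ' e e'

theorem lattice_comp_mem_of_generators (t : Module.End ℂ (CuspForm (Gamma0 N) k))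
    (ht : ∀ (P : Cf) (g g' : SL(2, ℤ)), (PS.sym hV P g g').comp t ∈ PS.lattice hV) :
    ∀ ξ ∈ PS.lattice hV, ξ.comp t ∈ PS.lattice hV := by
  intro ξ hξ
  unfold lattice at hξ
  induction hξ using Submodule.span_induction with
  | mem x hx =>
    obtain ⟨⟨P, g, g'⟩, rfl⟩ := hx
    exact ht P g g'
  | zero => simp
  | add x y _ _ hx hy =>
    have : (x + y).comp t = x.comp t + y.comp t := by ext v; simp
    rw [this]; exact Submodule.add_mem _ hx hy
  | smul a x _ hx =>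
    have : (a • x).comp t = a • x.comp t := by ext v; simp
    rw [this]; exact Submodule.smul_mem _ a hx

theorem lattice_heckeU_mem {p : ℕ} (hp : p ≠ 0) (t : Module.End ℂ (CuspForm (Gamma0 N) k))
    (ht : ∀ f : CuspForm (Gamma0 N) k, (⇑(t f) : ℍ → ℂ) = heckeU k p ⇑f) :
    ∀ ξ ∈ PS.lattice hV, ξ.comp t ∈ PS.lattice hV := by
  apply PS.lattice_comp_mem_of_generators hV
  intro P g g'
  have hdet : ∀ j : ℕ, 0 < (!![(1:ℤ), (j:ℤ); 0, (p:ℤ)]).det := by
    intro j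
    rw [Matrix.det_fin_two_of]
    have : 0 < (p : ℤ) := by exact_mod_cast Nat.pos_of_ne_zero hp
    linarith
  choose ξ' hξ' hξ'eq using fun j : ℕ =>
    PS.exists_sym_slash hV !![(1:ℤ), (j:ℤ); 0, (p:ℤ)] (hdet j) P g g'
  have : (PS.sym hV P g g').comp t = ∑ j ∈ Finset.range p, ξ' j := by
    ext f
    rw [LinearMap.comp_apply, sym_apply, ht f, heckeU_def, LinearMap.sum_apply,
      PS.I_sum]
    · refine Finset.sum_congr rfl fun j _ => ?_
      rw [heckeMatrix_eq_intGL hp j (hdet j)]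
      exact hξ'eq j f
    · intro j _
      rw [heckeMatrix_eq_intGL hp j (hdet j)]
      exact PS.slash_mem _ _ _ (hV f)
  rw [this]
  exact Submodule.sum_mem _ fun j _ => hξ' j

theorem lattice_heckeT_mem {p : ℕ} (hp : p ≠ 0) (t : Module.End ℂ (CuspForm (Gamma0 N) k))
    (ht : ∀ f : CuspForm (Gamma0 N) k, (⇑(t f) : ℍ → ℂ) = heckeT k p ⇑f) :
    ∀ ξ ∈ PS.lattice hV, ξ.comp t ∈ PS.lattice hV := by
  apply PS.lattice_comp_mem_of_generators hV
  intro P g g'
  have hp' : 0 < (p : ℤ) := by exact_mod_cast Nat.pos_of_ne_zero hp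
  have hdet : ∀ j : ℕ, 0 < (!![(1:ℤ), (j:ℤ); 0, (p:ℤ)]).det := by
    intro j
    rw [Matrix.det_fin_two_of]
    linarith
  have hdet' : 0 < (!![(p:ℤ), 0; 0, 1]).det := by
    rw [Matrix.det_fin_two_of]
    linarith
  choose ξ' hξ' hξ'eq using fun j : ℕ =>
    PS.exists_sym_slash hV !![(1:ℤ), (j:ℤ); 0, (p:ℤ)] (hdet j) P g g'
  obtain ⟨ξd, hξd, hξdeq⟩ := PS.exists_sym_slash hV !![(p:ℤ), 0; 0, 1] hdet' P g g'
  have hmem : ∀ (f : CuspForm (Gamma0 N) k), ∀ j ∈ Finset.range p,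
      (⇑f : ℍ → ℂ) ∣[k] heckeMatrix p j ∈ PS.W := by
    intro f j _
    rw [heckeMatrix_eq_intGL hp j (hdet j)]
    exact PS.slash_mem _ _ _ (hV f)
  have : (PS.sym hV P g g').comp t = ∑ j ∈ Finset.range p, ξ' j + ξd := by
    ext f
    rw [LinearMap.comp_apply, sym_apply, ht f, heckeT_def, LinearMap.add_apply,
      LinearMap.sum_apply, PS.I_add _ (PS.W.sum_mem (hmem f)), PS.I_sum _ _ (hmem f)]
    · congr 1
      · refine Finset.sum_congr rfl fun j _ => ?_
        rw [heckeMatrix_eq_intGL hp j (hdet j)]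
        exact hξ'eq j f
      · rw [heckeDiagMatrix_eq_intGL hp hdet']
        exact hξdeq f
    · rw [heckeDiagMatrix_eq_intGL hp hdet']
      exact PS.slash_mem _ _ _ (hV f)
  rw [this]
  exact Submodule.add_mem _ (Submodule.sum_mem _ fun j _ => hξ' j) hξd

/-- **Main reduction.**  A period system for weight `k` with finitely generated coefficient
module, defined on all cusp forms of level `Γ₀(N)`, whose periods detect the vanishing of cusp
forms, forces the Hecke algebra to be a finite `ℤ`-module. -/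
theorem heckeAlgebra_finite [NeZero N] [Module.Finite ℤ Cf]
    (hV : ∀ f : CuspForm (Gamma0 N) k, (⇑f : ℍ → ℂ) ∈ PS.W)
    (hsep : ∀ f : CuspForm (Gamma0 N) k,
      (∀ (P : Cf) (g g' : SL(2, ℤ)), PS.I ⇑f P g g' = 0) → f = 0) (S : Set ℕ) :
    Module.Finite ℤ (CuspForm.heckeAlgebra N k S) := by
  refine heckeAlgebra_finite_of_lattice (PS.lattice hV) (PS.lattice_fg hV) ?_ ?_ ?_ S
  · intro f hf
    apply hsep
    intro P g g'
    exact hf _ (PS.sym_mem_lattice hV P g g')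
  · intro ℓ hℓ hℓN
    exact PS.lattice_heckeT_mem hV hℓ.ne_zero _ (fun f => rfl)
  · intro q hq hqN
    exact PS.lattice_heckeU_mem hV hq.ne_zero _ (fun f => rfl)

end PeriodSystem

end Fermat.Agent.Lib.Helper8
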