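-- S22 (Comb): combinatorial lemmas in the vocabulary of `Fermat.Agent.Lib.Helper3.S22Defs`.
import Mathlib
import Fermat.Prelude.Def_CuspForm_HeckeAlgebra
import Fermat.Agent.Lib.Helper3.S22Defs
import Fermat.Agent.Lib.Helper8.S22Symbols

set_option autoImplicit false

namespace Fermat.Agent.Lib.Helper8

open CongruenceSubgroup UpperHalfPlane ModularForm
open scoped MatrixGroups ModularForm
open Fermat.Agent.Lib.Helper3.MS

/-- `intGL` agrees with `toGL`. -/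
theorem intGL_eq_toGL (M : Matrix (Fin 2) (Fin 2) ℤ) (hM : 0 < M.det) :
    intGL M hM = toGL ⟨M, hM⟩ := by
  apply Matrix.GeneralLinearGroup.ext
  intro i j
  rfl

theorem toGL_eq_intGL (δ : PosMat) : toGL δ = intGL δ.1 (posMat_det_pos δ) := by
  apply Matrix.GeneralLinearGroup.ext
  intro i j
  rfl

end Fermat.Agent.Lib.Helper8

namespace Fermat.Agent.Lib.Helper3.MS

open CongruenceSubgroup UpperHalfPlane ModularForm
open scoped MatrixGroups ModularForm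
open Fermat.Agent.Lib.Helper8

/-- Hermite normal form in `PosMat`. -/
theorem exists_SL_mul_upper (δ : PosMat) :
    ∃ (g : SL(2, ℤ)) (β : PosMat), (β : Matrix (Fin 2) (Fin 2) ℤ) 1 0 = 0 ∧ δ = SLtoPos g * β := by
  obtain ⟨h, β, hβ, e⟩ := Fermat.Agent.Lib.Helper8.exists_SL_mul_upper (δ : Matrix (Fin 2) (Fin 2) ℤ)
  have hdet : 0 < β.det := by
    have h1 := posMat_det_pos δ
    rw [e, Matrix.det_mul, h.2, one_mul] at h1
    exact h1
  refine ⟨h, ⟨β, hdet⟩, hβ, ?_⟩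
  apply Subtype.ext
  exact e

/-- A function on `SL(2, ℤ)` which is left-invariant under `Γ₀(N)` has finite range. -/
theorem finite_range_of_left_invariant {X : Type*} (N : ℕ) [NeZero N] (m : SL(2, ℤ) → X)
    (hm : ∀ γ ∈ CongruenceSubgroup.Gamma0 N, ∀ g, m (γ * g) = m g) : (Set.range m).Finite := by
  have hfin : Finite (SL(2, ℤ) ⧸ Gamma0 N) := Subgroup.finite_quotient_of_finiteIndex
  have : Set.range m ⊆ Set.range fun q : SL(2, ℤ) ⧸ Gamma0 N => m (Quotient.out q)⁻¹ := by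
    rintro _ ⟨g, rfl⟩
    obtain ⟨γ, hγ⟩ := QuotientGroup.mk_out_eq_mul (Gamma0 N) g⁻¹
    refine ⟨QuotientGroup.mk g⁻¹, ?_⟩
    have h1 : g = (γ : SL(2, ℤ)) * (Quotient.out (QuotientGroup.mk g⁻¹ : SL(2, ℤ) ⧸ Gamma0 N))⁻¹ := by
      rw [hγ]; group
    show m (Quotient.out (QuotientGroup.mk g⁻¹ : SL(2, ℤ) ⧸ Gamma0 N))⁻¹ = m g
    conv_rhs => rw [h1]
    rw [hm γ γ.2]
  exact (Set.finite_range _).subset this

theorem heckeMatrix_eq_toGL {p : ℕ} (hp : p ≠ 0) (j : ℕ) :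
    ∃ δ : PosMat, (δ : Matrix (Fin 2) (Fin 2) ℤ) = !![1, (j : ℤ); 0, (p : ℤ)] ∧
      ModularForm.heckeMatrix p j = toGL δ := by
  have hdet : 0 < (!![(1:ℤ), (j:ℤ); 0, (p:ℤ)]).det := by
    rw [Matrix.det_fin_two_of]
    have : 0 < (p : ℤ) := by exact_mod_cast Nat.pos_of_ne_zero hp
    linarith
  exact ⟨⟨_, hdet⟩, rfl, by rw [heckeMatrix_eq_intGL hp j hdet, intGL_eq_toGL]⟩

theorem heckeDiagMatrix_eq_toGL {p : ℕ} (hp : p ≠ 0) :
    ∃ δ : PosMat, (δ : Matrix (Fin 2) (Fin 2) ℤ) = !![(p : ℤ), 0; 0, 1] ∧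
      ModularForm.heckeDiagMatrix p = toGL δ := by
  have hdet : 0 < (!![(p:ℤ), 0; 0, 1]).det := by
    rw [Matrix.det_fin_two_of]
    have : 0 < (p : ℤ) := by exact_mod_cast Nat.pos_of_ne_zero hp
    linarith
  exact ⟨⟨_, hdet⟩, rfl, by rw [heckeDiagMatrix_eq_intGL hp hdet, intGL_eq_toGL]⟩

/-- Cusp forms of level `Γ₀(N)` and weight `≤ 1` vanish. -/
theorem cuspForm_eq_zero_of_weight_le_one {N : ℕ} [NeZero N] {k : ℤ} (hk : k ≤ 1)
    (f : CuspForm (CongruenceSubgroup.Gamma0 N) k) : f = 0 := by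
  rcases le_or_gt k 0 with h0 | h0
  · exact cuspForm_eq_zero_of_nonpos h0 f
  · have : k = 1 := le_antisymm hk h0
    subst this
    exact cuspForm_eq_zero_of_odd odd_one f

/-- abstract lemma -/
theorem finite_adjoin_of_lattice {V : Type*} [AddCommGroup V] [Module ℂ V]
    (G : Set (Module.End ℂ V)) (MM : Submodule ℤ (Module.Dual ℂ V)) (hfg : MM.FG)
    (hsep : ∀ v : V, (∀ ξ ∈ MM, ξ v = 0) → v = 0)
    (hstab : ∀ t ∈ G, ∀ ξ ∈ MM, ξ.comp t ∈ MM) :
    Module.Finite ℤ (Algebra.adjoin ℤ G) :=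
  finite_adjoin_of_stable_lattice G MM hfg hsep hstab

end Fermat.Agent.Lib.Helper3.MS
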