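-- S22: final assembly.  Instantiates the abstract `PeriodSystem` of `S22Symbols` with the periods
-- `period ((F ∣[k] g) * P|g) (g⁻¹ g')` of the modular-symbols project.
import Mathlib
import Fermat.Prelude.Def_CuspForm_HeckeAlgebra
import Fermat.Agent.Lib.Helper3.S22Defs
import Fermat.Agent.Lib.Helper8.S22Symbols
import Fermat.Agent.Lib.Helper8.S22Comb
import Fermat.Agent.Lib.Helper8.S22Cuspidal
import Fermat.Agent.Lib.Helper3.S22Poly
import Fermat.Agent.Lib.Helper3.S22Decay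
import Fermat.Agent.Lib.Helper3.S22Periods
import Fermat.Agent.Lib.Helper1.S22Sep

set_option autoImplicit false

noncomputable section

namespace Fermat.Agent.Lib.Helper8

open CongruenceSubgroup UpperHalfPlane ModularForm
open scoped MatrixGroups ModularForm
open Fermat.Agent.Lib.Helper3.MS

/-! ### Integer polynomial functions as a finitely generated abelian group -/

theorem isIntPolyFun_zero (w : ℕ) : IsIntPolyFun w (0 : ℍ → ℂ) :=
  ⟨0, by simp, fun z => by simp⟩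

theorem isIntPolyFun_add {w : ℕ} {φ ψ : ℍ → ℂ} (h : IsIntPolyFun w φ) (h' : IsIntPolyFun w ψ) :
    IsIntPolyFun w (φ + ψ) := by
  obtain ⟨p, hp, hφ⟩ := h
  obtain ⟨q, hq, hψ⟩ := h'
  refine ⟨p + q, (Polynomial.natDegree_add_le p q).trans (max_le hp hq), fun z => ?_⟩
  simp [hφ z, hψ z]

theorem isIntPolyFun_neg {w : ℕ} {φ : ℍ → ℂ} (h : IsIntPolyFun w φ) :
    IsIntPolyFun w (-φ) := by
  obtain ⟨p, hp, hφ⟩ := h
  refine ⟨-p, by rwa [Polynomial.natDegree_neg], fun z => ?_⟩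
  simp [hφ z]

/-- Integer polynomial functions of degree `≤ w` on the upper half plane. -/
def IntPoly (w : ℕ) : AddSubgroup (ℍ → ℂ) where
  carrier := {φ | IsIntPolyFun w φ}
  zero_mem' := isIntPolyFun_zero w
  add_mem' := fun h h' => isIntPolyFun_add h h'
  neg_mem' := fun h => isIntPolyFun_neg h

instance intPoly_finite (w : ℕ) : Module.Finite ℤ (IntPoly w) := by
  let mono : Fin (w + 1) → IntPoly w := fun j =>
    ⟨fun z : ℍ => (z : ℂ) ^ (j : ℕ), isIntPolyFun_monomial (Nat.lt_succ_iff.mp j.2)⟩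
  refine Module.Finite.of_surjective
    (Fintype.linearCombination ℤ mono : (Fin (w + 1) → ℤ) →ₗ[ℤ] IntPoly w) ?_
  rintro ⟨φ, hφ⟩
  obtain ⟨c, hc⟩ := IsIntPolyFun.eq_sum hφ
  refine ⟨fun j => c j, ?_⟩
  apply Subtype.ext
  rw [Fintype.linearCombination_apply]
  simp only [AddSubgroup.val_finsetSum, AddSubgroupClass.coe_zsmul]
  rw [hc, Finset.sum_range]
  refine Finset.sum_congr rfl fun j _ => ?_
  funext z
  simp [mono]

/-! ### The period system -/

section PS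

variable {k : ℤ} {w : ℕ} (hk : k = w + 2)

/-- The submodule of cuspidal functions. -/
def cuspidalSubmodule (k : ℤ) : Submodule ℂ (ℍ → ℂ) where
  carrier := {F | IsCuspidal k F}
  zero_mem' := isCuspidal_zero k
  add_mem' := fun h h' => h.add h'
  smul_mem' := fun c _ h => h.smul c

theorem mem_cuspidalSubmodule {k : ℤ} {F : ℍ → ℂ} : F ∈ cuspidalSubmodule k ↔ IsCuspidal k F :=
  Iff.rfl

/-- The action of integer matrices on integer polynomial functions (through the adjugate). -/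
def polyActHom (w : ℕ) (M : Matrix (Fin 2) (Fin 2) ℤ) : IntPoly w →+ IntPoly w :=
  if hM : 0 < M.det then
    AddMonoidHom.mk' (fun P => ⟨polyAct w (adjPos ⟨M, hM⟩) P.1, IsIntPolyFun.polyAct P.2 _⟩)
      (fun P Q => Subtype.ext (polyAct_add w _ P.1 Q.1))
  else 0

theorem polyActHom_apply (w : ℕ) (M : Matrix (Fin 2) (Fin 2) ℤ) (hM : 0 < M.det) (P : IntPoly w) :
    ((polyActHom w M P : IntPoly w) : ℍ → ℂ) = polyAct w (adjPos ⟨M, hM⟩) P.1 := by
  unfold polyActHom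
  rw [dif_pos hM]
  rfl

/-- The period `∫_{g ∞}^{g' ∞} F P`. -/
def periodI (k : ℤ) (w : ℕ) (F : ℍ → ℂ) (P : IntPoly w) (g g' : SL(2, ℤ)) : ℂ :=
  period ((F ∣[k] g) * polyAct w (SLtoPos g) P.1) (g⁻¹ * g')

include hk in
theorem isDiff_aux {F : ℍ → ℂ} (hF : IsCuspidal k F) (P : IntPoly w) (g : SL(2, ℤ)) :
    IsDiff ((F ∣[k] g) * polyAct w (SLtoPos g) P.1) :=
  IsCuspidal.mul_isPolyFun hk (hF.slash_SL g) (IsIntPolyFun.isPolyFun (IsIntPolyFun.polyAct P.2 _))

theorem SL_slash_smul (k : ℤ) (c : ℂ) (F : ℍ → ℂ) (g : SL(2, ℤ)) :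
    (c • F) ∣[k] g = c • (F ∣[k] g) :=
  ModularForm.SL_smul_slash k g F c

theorem SL_slash_slash (k : ℤ) (F : ℍ → ℂ) (g g' : SL(2, ℤ)) :
    (F ∣[k] g) ∣[k] g' = F ∣[k] (g * g') :=
  (SlashAction.slash_mul k g g' F).symm

theorem slash_SL_eq_toGL (k : ℤ) (F : ℍ → ℂ) (g : SL(2, ℤ)) :
    F ∣[k] g = F ∣[k] toGL (SLtoPos g) := by
  rw [toGL_SLtoPos]; rfl

theorem posMat_ext {a b : PosMat} (h : (a : Matrix (Fin 2) (Fin 2) ℤ) = b) : a = b :=
  Subtype.ext h

theorem adj_rel {M β : Matrix (Fin 2) (Fin 2) ℤ} {g h : SL(2, ℤ)} (e : M * g.1 = h.1 * β) :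
    g.1 * β.adjugate = M.adjugate * h.1 := by
  have h1 : g.1.adjugate * M.adjugate = β.adjugate * h.1.adjugate := by
    rw [← Matrix.adjugate_mul_distrib, ← Matrix.adjugate_mul_distrib, e]
  have hg : g.1 * g.1.adjugate = 1 := by rw [Matrix.mul_adjugate, g.2, one_smul]
  have hh : h.1.adjugate * h.1 = 1 := by rw [Matrix.adjugate_mul, h.2, one_smul]
  calc g.1 * β.adjugate = g.1 * β.adjugate * (h.1.adjugate * h.1) := by rw [hh, mul_one]
    _ = g.1 * (β.adjugate * h.1.adjugate) * h.1 := by simp only [mul_assoc]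
    _ = g.1 * (g.1.adjugate * M.adjugate) * h.1 := by rw [h1]
    _ = (g.1 * g.1.adjugate) * M.adjugate * h.1 := by simp only [mul_assoc]
    _ = M.adjugate * h.1 := by rw [hg, one_mul]

include hk in
theorem periodI_slash {F : ℍ → ℂ} (hF : IsCuspidal k F) (M : Matrix (Fin 2) (Fin 2) ℤ)
    (hM : 0 < M.det) (P : IntPoly w) (g g' h h' : SL(2, ℤ)) (β β' : Matrix (Fin 2) (Fin 2) ℤ)
    (hβ : β 1 0 = 0) (hβ' : β' 1 0 = 0) (e : M * g.1 = h.1 * β) (e' : M * g'.1 = h'.1 * β') :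
    periodI k w (F ∣[k] intGL M hM) P g g' = periodI k w F (polyActHom w M P) h h' := by
  have hdetβ : 0 < β.det := by
    have := congrArg Matrix.det e
    rw [Matrix.det_mul, Matrix.det_mul, g.2, h.2, mul_one, one_mul] at this
    rwa [← this]
  have hdetβ' : 0 < β'.det := by
    have := congrArg Matrix.det e'
    rw [Matrix.det_mul, Matrix.det_mul, g'.2, h'.2, mul_one, one_mul] at this
    rwa [← this]
  set μ : PosMat := ⟨M, hM⟩ with hμ
  set βP : PosMat := ⟨β, hdetβ⟩ with hβP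
  set βP' : PosMat := ⟨β', hdetβ'⟩ with hβP'
  have eP : μ * SLtoPos g = SLtoPos h * βP := posMat_ext e
  have eP' : μ * SLtoPos g' = SLtoPos h' * βP' := posMat_ext e'
  unfold periodI
  -- rewrite the slashed function
  have h1 : (F ∣[k] intGL M hM) ∣[k] g = (F ∣[k] h) ∣[k] toGL βP := by
    rw [intGL_eq_toGL, slash_SL_eq_toGL k _ g, slash_SL_eq_toGL k _ h, ← SlashAction.slash_mul,
      ← SlashAction.slash_mul, ← map_mul, ← map_mul, eP]
  rw [h1, slash_mul_eq_slash_two hk]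
  -- transport the period
  have hrel : βP * SLtoPos (g⁻¹ * g') = SLtoPos (h⁻¹ * h') * βP' := by
    apply posMat_ext
    show β * (g⁻¹ * g').1 = (h⁻¹ * h').1 * β'
    have hg : g.1 * (g⁻¹ : SL(2, ℤ)).1 = 1 := by
      rw [← Matrix.SpecialLinearGroup.coe_mul, mul_inv_cancel]; rfl
    have hh : (h⁻¹ : SL(2, ℤ)).1 * h.1 = 1 := by
      rw [← Matrix.SpecialLinearGroup.coe_mul, inv_mul_cancel]; rfl
    have hβeq : β = (h⁻¹ : SL(2, ℤ)).1 * M * g.1 := by
      rw [mul_assoc, e, ← mul_assoc, hh, one_mul]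
    rw [Matrix.SpecialLinearGroup.coe_mul, Matrix.SpecialLinearGroup.coe_mul, hβeq]
    calc (h⁻¹ : SL(2, ℤ)).1 * M * g.1 * ((g⁻¹ : SL(2, ℤ)).1 * g'.1)
        = (h⁻¹ : SL(2, ℤ)).1 * M * (g.1 * (g⁻¹ : SL(2, ℤ)).1) * g'.1 := by simp only [mul_assoc]
      _ = (h⁻¹ : SL(2, ℤ)).1 * (M * g'.1) := by rw [hg, mul_one, mul_assoc]
      _ = (h⁻¹ : SL(2, ℤ)).1 * h'.1 * β' := by rw [e', mul_assoc]
  have hdiff : IsDiff ((F ∣[k] h) *
      polyAct w (adjPos βP) (polyAct w (SLtoPos g) P.1)) :=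
    IsCuspidal.mul_isPolyFun hk (hF.slash_SL h)
      (IsPolyFun.polyAct (IsIntPolyFun.isPolyFun (IsIntPolyFun.polyAct P.2 _)) _)
  rw [period_slash_upper hdiff βP βP' (g⁻¹ * g') (h⁻¹ * h') hβ hβ' hrel]
  -- compare the polynomial parts
  rw [polyActHom_apply w M hM, ← polyAct_mul, ← polyAct_mul]
  have : SLtoPos g * adjPos βP = adjPos μ * SLtoPos h := by
    apply posMat_ext
    exact adj_rel e
  rw [this]

/-- The period system of weight `k = w + 2`. -/
def periodSystem : PeriodSystem k (IntPoly w) where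
  W := cuspidalSubmodule k
  slash_mem M hM φ hφ := by
    rw [mem_cuspidalSubmodule] at hφ ⊢
    rw [intGL_eq_toGL]
    exact hφ.slash _
  act := polyActHom w
  I := periodI k w
  I_add φ hφ ψ hψ P g g' := by
    unfold periodI
    rw [SlashAction.add_slash, add_mul]
    exact period_add (isDiff_aux hk hφ P g) (isDiff_aux hk hψ P g) _
  I_smul c φ hφ P g g' := by
    unfold periodI
    rw [SL_slash_smul, smul_mul_assoc]
    exact period_smul (isDiff_aux hk hφ P g) c _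
  I_add_right φ hφ P Q g g' := by
    unfold periodI
    rw [AddSubgroup.coe_add, polyAct_add, mul_add]
    exact period_add (isDiff_aux hk hφ P g) (isDiff_aux hk hφ Q g) _
  I_trans φ hφ P g₁ g₂ g₃ := by
    unfold periodI
    have h1 : g₁⁻¹ * g₃ = (g₁⁻¹ * g₂) * (g₂⁻¹ * g₃) := by group
    have h2 : g₁ * (g₁⁻¹ * g₂) = g₂ := by group
    have e1 := period_mul (isDiff_aux hk hφ P g₁) (g₁⁻¹ * g₂) (g₂⁻¹ * g₃)
    have e2 : ((φ ∣[k] g₁) * polyAct w (SLtoPos g₁) P.1) ∣[(2 : ℤ)] (g₁⁻¹ * g₂) =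
        (φ ∣[k] g₂) * polyAct w (SLtoPos g₂) P.1 := by
      rw [mul_slash_two_SL hk, ← polyAct_mul, ← map_mul, SL_slash_slash, h2]
    rw [h1, e1, e2]
  I_slash φ hφ M hM P g g' h h' β β' hβ hβ' e e' :=
    periodI_slash hk hφ M hM P g g' h h' β β' hβ hβ' e e'

end PS

/-- **S22 for weights `k = w + 2`.** -/
theorem heckeAlgebra_finite_of_eq_add_two {N : ℕ} [NeZero N] {k : ℤ} {w : ℕ} (hk : k = w + 2)
    (S : Set ℕ) : Module.Finite ℤ (CuspForm.heckeAlgebra N k S) := by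
  refine (periodSystem hk).heckeAlgebra_finite (fun f => isCuspidal_cuspForm f) ?_ S
  intro f hf
  apply eq_zero_of_periods_eq_zero hk f
  intro g γ j hj
  -- choose `P` with `P|g = z^j`
  let P : IntPoly w := ⟨polyAct w (SLtoPos g⁻¹) (fun z : ℍ => (z : ℂ) ^ j),
    IsIntPolyFun.polyAct (isIntPolyFun_monomial hj) _⟩
  have := hf P g (g * γ)
  change period ((⇑f ∣[k] g) * polyAct w (SLtoPos g) P.1) (g⁻¹ * (g * γ)) = 0 at this
  rw [inv_mul_cancel_left] at this
  have hP : polyAct w (SLtoPos g) P.1 = fun z : ℍ => (z : ℂ) ^ j := by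
    show polyAct w (SLtoPos g) (polyAct w (SLtoPos g⁻¹) _) = _
    rw [← polyAct_mul, ← map_mul, inv_mul_cancel, map_one, polyAct_one]
  rw [hP] at this
  exact this

/-- **S22.** The Hecke algebra is a finite `ℤ`-module. -/
theorem heckeAlgebra_finite_all (N : ℕ) [NeZero N] (k : ℤ) (S : Set ℕ) :
    Module.Finite ℤ (CuspForm.heckeAlgebra N k S) := by
  rcases le_or_gt k 1 with h1 | h1
  · exact heckeAlgebra_finite_of_forall_eq_zero S (cuspForm_eq_zero_of_weight_le_one h1)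
  · obtain ⟨w, hw⟩ := Int.eq_ofNat_of_zero_le (show 0 ≤ k - 2 by omega)
    exact heckeAlgebra_finite_of_eq_add_two (w := w) (by omega) S

end Fermat.Agent.Lib.Helper8
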